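/-
S26lib / ProdAff / Box  (helper4)  --  Project K (S26), brick (G2)

Affine boxes of a product `X = C ×_K T` of `K`-schemes: for affine opens `U ⊆ C`, `T' ⊆ T` the box
`W = π₁⁻¹ U ⊓ π₂⁻¹ T'` is an affine open of `X` and `Γ(X, W) = Γ(C, U) ⊗[K] Γ(T, T')`, compatibly
with `π₁^*` and `π₂^*`.  Mathlib objects only.
-/
import Mathlib
import Fermat.Agent.S26lib.P5a.FinType

set_option autoImplicit false

universe u

open AlgebraicGeometry CategoryTheory CategoryTheory.Limits TopologicalSpace TensorProduct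

namespace Fermat.Agent.S26lib.ProdAff

open Fermat.Agent.S26lib.P5a

variable {K : Type u} [Field K] {C T : Scheme.{u}}
  (fC : C ⟶ Spec (CommRingCat.of K)) (fT : T ⟶ Spec (CommRingCat.of K))

/-- the box `U × T'` in `C ×_K T` -/
noncomputable def box (U : C.Opens) (T' : T.Opens) : (pullback fC fT).Opens :=
  pullback.fst fC fT ⁻¹ᵁ U ⊓ pullback.snd fC fT ⁻¹ᵁ T'

theorem box_le_fst (U : C.Opens) (T' : T.Opens) : box fC fT U T' ≤ pullback.fst fC fT ⁻¹ᵁ U :=
  inf_le_left

theorem box_le_snd (U : C.Opens) (T' : T.Opens) : box fC fT U T' ≤ pullback.snd fC fT ⁻¹ᵁ T' :=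
  inf_le_right

theorem mem_box_iff (U : C.Opens) (T' : T.Opens) (z : ↥(pullback fC fT)) :
    z ∈ box fC fT U T' ↔ pullback.fst fC fT z ∈ U ∧ pullback.snd fC fT z ∈ T' := Iff.rfl

/-- `Spec.map (constHomOpen f U) = fromSpec ≫ f` -/
theorem SpecMap_constHomOpen {X : Scheme.{u}} (f : X ⟶ Spec (CommRingCat.of K)) {U : X.Opens}
    (hU : IsAffineOpen U) : Spec.map (constHomOpen f U) = hU.fromSpec ≫ f := by
  have h := IsAffineOpen.SpecMap_appLE_fromSpec f (isAffineOpen_top _) hU (le_top)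
  rw [← h]
  unfold constHomOpen
  rw [Spec.map_comp]
  congr 1
  rw [IsAffineOpen.fromSpec_top, Scheme.isoSpec_Spec_inv]

theorem SpecMap_algebraMap {X : Scheme.{u}} (f : X ⟶ Spec (CommRingCat.of K)) {U : X.Opens}
    (hU : IsAffineOpen U) [Algebra K Γ(X, U)]
    (hS : algebraMap K Γ(X, U) = (constHomOpen f U).hom) :
    Spec.map (CommRingCat.ofHom (algebraMap K Γ(X, U))) ≫ 𝟙 _ = hU.fromSpec ≫ f := by
  rw [Category.comp_id, ← SpecMap_constHomOpen f hU, hS]
  rfl

section
variable {U : C.Opens} {T' : T.Opens} (hU : IsAffineOpen U) (hT' : IsAffineOpen T')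
  [Algebra K Γ(C, U)] [Algebra K Γ(T, T')]
  (hS : algebraMap K Γ(C, U) = (constHomOpen fC U).hom)
  (hR : algebraMap K Γ(T, T') = (constHomOpen fT T').hom)

/-- the open immersion `Spec Γ(C,U) ×_K Spec Γ(T,T') ⟶ C ×_K T` -/
noncomputable def boxMap₀ :
    pullback (Spec.map (CommRingCat.ofHom (algebraMap K Γ(C, U))))
      (Spec.map (CommRingCat.ofHom (algebraMap K Γ(T, T')))) ⟶ pullback fC fT :=
  pullback.map _ _ fC fT hU.fromSpec hT'.fromSpec (𝟙 _)
    (SpecMap_algebraMap fC hU hS) (SpecMap_algebraMap fT hT' hR)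

instance : IsOpenImmersion (boxMap₀ fC fT hU hT' hS hR) := by
  unfold boxMap₀
  infer_instance

/-- the open immersion `Spec (Γ(C,U) ⊗ Γ(T,T')) ⟶ C ×_K T` -/
noncomputable def boxMap : Spec (CommRingCat.of (Γ(C, U) ⊗[K] Γ(T, T'))) ⟶ pullback fC fT :=
  (pullbackSpecIso K Γ(C, U) Γ(T, T')).inv ≫ boxMap₀ fC fT hU hT' hS hR

instance : IsOpenImmersion (boxMap fC fT hU hT' hS hR) := by
  unfold boxMap
  infer_instance

theorem boxMap_fst : boxMap fC fT hU hT' hS hR ≫ pullback.fst fC fT =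
    Spec.map (CommRingCat.ofHom (Algebra.TensorProduct.includeLeftRingHom)) ≫ hU.fromSpec := by
  unfold boxMap boxMap₀
  rw [Category.assoc, pullback.lift_fst, ← Category.assoc, pullbackSpecIso_inv_fst]

theorem boxMap_snd : boxMap fC fT hU hT' hS hR ≫ pullback.snd fC fT =
    Spec.map (CommRingCat.ofHom (R := Γ(T, T')) (S := Γ(C, U) ⊗[K] Γ(T, T'))
      (RingHomClass.toRingHom Algebra.TensorProduct.includeRight)) ≫ hT'.fromSpec := by
  unfold boxMap boxMap₀
  rw [Category.assoc, pullback.lift_snd, ← Category.assoc, pullbackSpecIso_inv_snd]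

theorem range_boxMap : Set.range (boxMap fC fT hU hT' hS hR) = (box fC fT U T' : Set _) := by
  have h1 : Set.range (boxMap fC fT hU hT' hS hR) =
      Set.range (boxMap₀ fC fT hU hT' hS hR) := by
    unfold boxMap
    rw [Scheme.Hom.comp_base, TopCat.coe_comp, Set.range_comp]
    have : Set.range ((pullbackSpecIso K Γ(C, U) Γ(T, T')).inv) = Set.univ :=
      Set.range_eq_univ.mpr (pullbackSpecIso K Γ(C, U) Γ(T, T')).inv.surjective
    rw [this, Set.image_univ]
  rw [h1]
  unfold boxMap₀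
  rw [Scheme.Pullback.range_map, hU.range_fromSpec, hT'.range_fromSpec]
  rfl

theorem opensRange_boxMap : (boxMap fC fT hU hT' hS hR).opensRange = box fC fT U T' :=
  TopologicalSpace.Opens.ext (range_boxMap fC fT hU hT' hS hR)

include hU hT' hS hR in
theorem isAffineOpen_box : IsAffineOpen (box fC fT U T') := by
  rw [← opensRange_boxMap fC fT hU hT' hS hR]
  exact isAffineOpen_opensRange _

/-- the comparison isomorphism of affine schemes -/
noncomputable def boxIso :
    Spec (CommRingCat.of (Γ(C, U) ⊗[K] Γ(T, T'))) ≅ Spec Γ(pullback fC fT, box fC fT U T') :=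
  IsOpenImmersion.isoOfRangeEq (boxMap fC fT hU hT' hS hR)
    (isAffineOpen_box fC fT hU hT' hS hR).fromSpec
    (by rw [range_boxMap, IsAffineOpen.range_fromSpec])

theorem boxIso_hom_fromSpec : (boxIso fC fT hU hT' hS hR).hom ≫
    (isAffineOpen_box fC fT hU hT' hS hR).fromSpec = boxMap fC fT hU hT' hS hR :=
  IsOpenImmersion.isoOfRangeEq_hom_fac _ _ _

/-- the ring map `Γ(X, U × T') ⟶ Γ(C,U) ⊗ Γ(T,T')` -/
noncomputable def boxHom :
    Γ(pullback fC fT, box fC fT U T') ⟶ CommRingCat.of (Γ(C, U) ⊗[K] Γ(T, T')) :=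
  Spec.preimage (boxIso fC fT hU hT' hS hR).hom

/-- and its inverse -/
noncomputable def boxInv :
    CommRingCat.of (Γ(C, U) ⊗[K] Γ(T, T')) ⟶ Γ(pullback fC fT, box fC fT U T') :=
  Spec.preimage (boxIso fC fT hU hT' hS hR).inv

theorem boxHom_boxInv : boxHom fC fT hU hT' hS hR ≫ boxInv fC fT hU hT' hS hR = 𝟙 _ := by
  apply Spec.map_injective
  rw [Spec.map_comp, Spec.map_id]
  unfold boxHom boxInv
  rw [Spec.map_preimage, Spec.map_preimage, Iso.inv_hom_id]

theorem boxInv_boxHom : boxInv fC fT hU hT' hS hR ≫ boxHom fC fT hU hT' hS hR = 𝟙 _ := by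
  apply Spec.map_injective
  rw [Spec.map_comp, Spec.map_id]
  unfold boxHom boxInv
  rw [Spec.map_preimage, Spec.map_preimage, Iso.hom_inv_id]

theorem appLE_fst_boxHom :
    (pullback.fst fC fT).appLE U (box fC fT U T') (box_le_fst fC fT U T') ≫
      boxHom fC fT hU hT' hS hR =
    CommRingCat.ofHom (Algebra.TensorProduct.includeLeftRingHom) := by
  apply Spec.map_injective
  rw [← cancel_mono hU.fromSpec, Spec.map_comp, Category.assoc,
    IsAffineOpen.SpecMap_appLE_fromSpec (pullback.fst fC fT) hU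
      (isAffineOpen_box fC fT hU hT' hS hR) (box_le_fst fC fT U T')]
  unfold boxHom
  rw [Spec.map_preimage, ← Category.assoc, boxIso_hom_fromSpec, boxMap_fst]

theorem appLE_snd_boxHom :
    (pullback.snd fC fT).appLE T' (box fC fT U T') (box_le_snd fC fT U T') ≫
      boxHom fC fT hU hT' hS hR =
    CommRingCat.ofHom (R := Γ(T, T')) (S := Γ(C, U) ⊗[K] Γ(T, T'))
      (RingHomClass.toRingHom Algebra.TensorProduct.includeRight) := by
  apply Spec.map_injective
  rw [← cancel_mono hT'.fromSpec, Spec.map_comp, Category.assoc,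
    IsAffineOpen.SpecMap_appLE_fromSpec (pullback.snd fC fT) hT'
      (isAffineOpen_box fC fT hU hT' hS hR) (box_le_snd fC fT U T')]
  unfold boxHom
  rw [Spec.map_preimage, ← Category.assoc, boxIso_hom_fromSpec, boxMap_snd]

/-- **`Γ(C ×_K T, U × T') ≃ Γ(C,U) ⊗[K] Γ(T,T')`** -/
noncomputable def tensorEquiv :
    Γ(pullback fC fT, box fC fT U T') ≃+* Γ(C, U) ⊗[K] Γ(T, T') :=
  RingEquiv.ofRingHom (boxHom fC fT hU hT' hS hR).hom (boxInv fC fT hU hT' hS hR).hom
    (RingHom.ext fun x =>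
      congrArg (fun φ : CommRingCat.of (Γ(C, U) ⊗[K] Γ(T, T')) ⟶ _ => φ.hom x)
        (boxInv_boxHom fC fT hU hT' hS hR))
    (RingHom.ext fun x =>
      congrArg (fun φ : Γ(pullback fC fT, box fC fT U T') ⟶ _ => φ.hom x)
        (boxHom_boxInv fC fT hU hT' hS hR))

theorem tensorEquiv_fst (s : Γ(C, U)) :
    tensorEquiv fC fT hU hT' hS hR
      ((pullback.fst fC fT).appLE U (box fC fT U T') (box_le_fst fC fT U T') s) = s ⊗ₜ[K] 1 := by
  have := appLE_fst_boxHom fC fT hU hT' hS hR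
  exact congrArg (fun φ => φ.hom s) this

theorem tensorEquiv_snd (r : Γ(T, T')) :
    tensorEquiv fC fT hU hT' hS hR
      ((pullback.snd fC fT).appLE T' (box fC fT U T') (box_le_snd fC fT U T') r) = 1 ⊗ₜ[K] r := by
  have := appLE_snd_boxHom fC fT hU hT' hS hR
  exact congrArg (fun φ => φ.hom r) this

end

end Fermat.Agent.S26lib.ProdAff
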