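/-
S26lib / ProdAff / Fibre  (helper4)  --  Project K (S26), brick (G2)

The fibre of an affine box `W = U × T'` of `X = C ×_K T` over a rational point `t₀` of `T`:
`Γ(T,T') → Γ(X,W)` is flat, the restriction `ι^* : Γ(X,W) → Γ(C,U)` along the fibre inclusion is
onto with kernel generated by the maximal ideal of `t₀`, and `Γ(X,W)` is generated by
`π₁^* Γ(C,U)` and `π₂^* Γ(T,T')`.  Mathlib objects only.
-/
import Mathlib
import Fermat.Agent.S26lib.ProdAff.Box

set_option autoImplicit false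

universe u

open AlgebraicGeometry CategoryTheory CategoryTheory.Limits TopologicalSpace TensorProduct

namespace Fermat.Agent.S26lib.ProdAff

open Fermat.Agent.S26lib.P5a

variable {K : Type u} [Field K] {C T : Scheme.{u}}
  (fC : C ⟶ Spec (CommRingCat.of K)) (fT : T ⟶ Spec (CommRingCat.of K))

/-- constants are compatible with `K`-morphisms -/
theorem constHomOpen_appLE {X Y : Scheme.{u}} (fX : X ⟶ Spec (CommRingCat.of K))
    (fY : Y ⟶ Spec (CommRingCat.of K)) (g : X ⟶ Y) (hg : g ≫ fY = fX) (V : Y.Opens)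
    (W : X.Opens) (e : W ≤ g ⁻¹ᵁ V) :
    constHomOpen fY V ≫ g.appLE V W e = constHomOpen fX W := by
  subst hg
  unfold constHomOpen
  rw [Category.assoc]
  congr 1
  exact Scheme.Hom.appLE_comp_appLE _ _ _ _ _ _ _

theorem appLE_of_eq {X Y : Scheme.{u}} {f g : X ⟶ Y} (h : f = g) (U : Y.Opens) (V : X.Opens)
    (e : V ≤ f ⁻¹ᵁ U) : f.appLE U V e = g.appLE U V (by subst h; exact e) := by
  subst h; rfl

theorem id_appLE_self {X : Scheme.{u}} (U : X.Opens) (e : U ≤ (𝟙 X) ⁻¹ᵁ U) :
    Scheme.Hom.appLE (𝟙 X) U U e = 𝟙 _ := by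
  simp only [Scheme.Hom.appLE, Scheme.Hom.id_app]
  exact X.presheaf.map_id _

/-- a box is affine (no auxiliary algebra structures) -/
theorem isAffineOpen_box' {U : C.Opens} {T' : T.Opens} (hU : IsAffineOpen U)
    (hT' : IsAffineOpen T') : IsAffineOpen (box fC fT U T') := by
  let _ : Algebra K Γ(C, U) := (constHomOpen fC U).hom.toAlgebra
  let _ : Algebra K Γ(T, T') := (constHomOpen fT T').hom.toAlgebra
  exact isAffineOpen_box fC fT hU hT' rfl rfl

/-- the structure morphism of the product -/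
noncomputable abbrev fX : pullback fC fT ⟶ Spec (CommRingCat.of K) := pullback.fst fC fT ≫ fC

theorem snd_comp_fT : pullback.snd fC fT ≫ fT = fX fC fT := pullback.condition.symm

/-- `π₁^* c = π₂^* c` for constants `c` -/
theorem appLE_fst_const (U : C.Opens) (T' : T.Opens) (c : K) :
    ((pullback.fst fC fT).appLE U (box fC fT U T') (box_le_fst fC fT U T')).hom
      ((constHomOpen fC U).hom c) =
    ((pullback.snd fC fT).appLE T' (box fC fT U T') (box_le_snd fC fT U T')).hom
      ((constHomOpen fT T').hom c) := by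
  have h1 := constHomOpen_appLE (fX fC fT) fC (pullback.fst fC fT) rfl U (box fC fT U T')
    (box_le_fst fC fT U T')
  have h2 := constHomOpen_appLE (fX fC fT) fT (pullback.snd fC fT) (snd_comp_fT fC fT) T'
    (box fC fT U T') (box_le_snd fC fT U T')
  have e1 := congrArg (fun φ => φ.hom c) h1
  have e2 := congrArg (fun φ => φ.hom c) h2
  simp only [CommRingCat.hom_comp, RingHom.coe_comp, Function.comp_apply] at e1 e2
  rw [e1, e2]

/-- flatness of `Γ(T,T') → Γ(X, U × T')` -/
theorem flat_appLE_snd {U : C.Opens} {T' : T.Opens} (hU : IsAffineOpen U)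
    (hT' : IsAffineOpen T') :
    ((pullback.snd fC fT).appLE T' (box fC fT U T') (box_le_snd fC fT U T')).hom.Flat := by
  have : Flat fC := inferInstance
  exact (pullback.snd fC fT).flat_appLE hT' (isAffineOpen_box' fC fT hU hT') _

/-! ### generation by the two factors -/

section gen
variable {U : C.Opens} {T' : T.Opens} (hU : IsAffineOpen U) (hT' : IsAffineOpen T')

include hU hT' in
/-- an induction principle: `Γ(X, U × T')` is additively generated by the products
`π₁^* s * π₂^* r` -/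
theorem box_induction {P : Γ(pullback fC fT, box fC fT U T') → Prop}
    (h0 : P 0)
    (hmul : ∀ (s : Γ(C, U)) (r : Γ(T, T')),
      P (((pullback.fst fC fT).appLE U (box fC fT U T') (box_le_fst fC fT U T')).hom s *
        ((pullback.snd fC fT).appLE T' (box fC fT U T') (box_le_snd fC fT U T')).hom r))
    (hadd : ∀ a b, P a → P b → P (a + b)) (w : Γ(pullback fC fT, box fC fT U T')) : P w := by
  let _ : Algebra K Γ(C, U) := (constHomOpen fC U).hom.toAlgebra
  let _ : Algebra K Γ(T, T') := (constHomOpen fT T').hom.toAlgebra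
  let ψ := tensorEquiv fC fT hU hT' (K := K) rfl rfl
  have key : ∀ x : Γ(C, U) ⊗[K] Γ(T, T'), P (ψ.symm x) := by
    intro x
    induction x using TensorProduct.induction_on with
    | zero => rw [map_zero]; exact h0
    | tmul s r =>
      have : ψ.symm (s ⊗ₜ[K] r) =
          ((pullback.fst fC fT).appLE U (box fC fT U T') (box_le_fst fC fT U T')).hom s *
          ((pullback.snd fC fT).appLE T' (box fC fT U T') (box_le_snd fC fT U T')).hom r := by
        rw [RingEquiv.symm_apply_eq, map_mul]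
        erw [tensorEquiv_fst fC fT hU hT' rfl rfl s, tensorEquiv_snd fC fT hU hT' rfl rfl r]
        rw [Algebra.TensorProduct.tmul_mul_tmul, mul_one, one_mul]
      rw [this]
      exact hmul s r
    | add a b ha hb => rw [map_add]; exact hadd _ _ ha hb
  have := key (ψ w)
  rwa [RingEquiv.symm_apply_apply] at this

include hU hT' in
/-- `Γ(X, U × T')` is generated as a ring by `π₁^* Γ(C,U)` and `π₂^* Γ(T,T')` -/
theorem closure_range_eq_top :
    Subring.closure
      (Set.range ((pullback.fst fC fT).appLE U (box fC fT U T') (box_le_fst fC fT U T')).hom ∪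
       Set.range ((pullback.snd fC fT).appLE T' (box fC fT U T') (box_le_snd fC fT U T')).hom) =
      ⊤ := by
  rw [eq_top_iff]
  intro w _
  refine box_induction fC fT hU hT' (Subring.zero_mem _) (fun s r => ?_)
    (fun a b ha hb => Subring.add_mem _ ha hb) w
  exact Subring.mul_mem _ (Subring.subset_closure (Or.inl ⟨s, rfl⟩))
    (Subring.subset_closure (Or.inr ⟨r, rfl⟩))

end gen

/-! ### the fibre over a rational point of `T` -/

section fibre
variable (t₀ : Spec (CommRingCat.of K) ⟶ T)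

theorem top_le_preimage (T' : T.Opens) (h : t₀ (IsLocalRing.closedPoint K) ∈ T') :
    (⊤ : (Spec (CommRingCat.of K)).Opens) ≤ t₀ ⁻¹ᵁ T' := by
  intro x _
  have : x = IsLocalRing.closedPoint K := Subsingleton.elim _ _
  rw [this]
  exact h

/-- evaluation of the sections over `T'` at the rational point `t₀ ∈ T'` -/
noncomputable def evOpen (T' : T.Opens) (h : t₀ (IsLocalRing.closedPoint K) ∈ T') :
    Γ(T, T') ⟶ CommRingCat.of K :=
  t₀.appLE T' ⊤ (top_le_preimage t₀ T' h) ≫ (Scheme.ΓSpecIso (CommRingCat.of K)).hom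

variable {fT} in
theorem constHomOpen_evOpen (ht₀ : t₀ ≫ fT = 𝟙 _) (T' : T.Opens)
    (h : t₀ (IsLocalRing.closedPoint K) ∈ T') :
    constHomOpen fT T' ≫ evOpen t₀ T' h = 𝟙 _ := by
  unfold constHomOpen evOpen
  have h1 : fT.appLE ⊤ T' le_top ≫ t₀.appLE T' ⊤ (top_le_preimage t₀ T' h) =
      (t₀ ≫ fT).appLE ⊤ ⊤ le_top := Scheme.Hom.appLE_comp_appLE _ _ _ _ _ _ _
  have h2 : (t₀ ≫ fT).appLE ⊤ ⊤ le_top = 𝟙 _ := by
    exact (appLE_of_eq ht₀ _ _ _).trans (id_appLE_self _ _)
  rw [Category.assoc, ← Category.assoc (fT.appLE ⊤ T' le_top), h1, h2, Category.id_comp,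
    Iso.inv_hom_id]

end fibre

section fibre2
variable {fC fT}
variable {t₀ : Spec (CommRingCat.of K) ⟶ T} (ht₀ : t₀ ≫ fT = 𝟙 _)
  {ι : C ⟶ pullback fC fT} (hι₁ : ι ≫ pullback.fst fC fT = 𝟙 C)
  (hι₂ : ι ≫ pullback.snd fC fT = fC ≫ t₀)
  (U : C.Opens) {T' : T.Opens} (h : t₀ (IsLocalRing.closedPoint K) ∈ T')

include hι₁ hι₂ h in
/-- the fibre of the box `U × T'` over `t₀ ∈ T'` is `U` -/
theorem preimage_box : ι ⁻¹ᵁ box fC fT U T' = U := by
  ext z
  have h1 : pullback.fst fC fT (ι z) = z := by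
    rw [← Scheme.Hom.comp_apply, hι₁]; rfl
  have h2 : pullback.snd fC fT (ι z) = t₀ (IsLocalRing.closedPoint K) := by
    rw [← Scheme.Hom.comp_apply, hι₂, Scheme.Hom.comp_apply]
    exact congrArg _ (Subsingleton.elim _ _)
  show ι z ∈ box fC fT U T' ↔ z ∈ U
  rw [mem_box_iff, h1, h2]
  exact ⟨fun hh => hh.1, fun hh => ⟨hh, h⟩⟩

include hι₁ hι₂ h in
theorem le_preimage_box : U ≤ ι ⁻¹ᵁ box fC fT U T' :=
  (preimage_box hι₁ hι₂ U h).ge

include hι₁ in
/-- `ι^* ∘ π₁^* = id` -/
theorem appLE_fst_fib :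
    (pullback.fst fC fT).appLE U (box fC fT U T') (box_le_fst fC fT U T') ≫
      ι.appLE (box fC fT U T') U (le_preimage_box hι₁ hι₂ U h) = 𝟙 _ := by
  rw [Scheme.Hom.appLE_comp_appLE]
  exact (appLE_of_eq hι₁ _ _ _).trans (id_appLE_self _ _)

include hι₂ in
/-- `ι^* ∘ π₂^* = const ∘ ev_{t₀}` -/
theorem appLE_snd_fib :
    (pullback.snd fC fT).appLE T' (box fC fT U T') (box_le_snd fC fT U T') ≫
      ι.appLE (box fC fT U T') U (le_preimage_box hι₁ hι₂ U h) =
    evOpen t₀ T' h ≫ constHomOpen fC U := by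
  rw [Scheme.Hom.appLE_comp_appLE]
  refine (appLE_of_eq hι₂ _ _ _).trans ?_
  unfold evOpen constHomOpen
  rw [Category.assoc, Iso.hom_inv_id_assoc]
  exact (Scheme.Hom.appLE_comp_appLE _ _ _ _ _ _ _).symm

include hι₁ in
/-- `ι^* : Γ(X, U × T') → Γ(C, U)` is onto -/
theorem fib_surjective :
    Function.Surjective (ι.appLE (box fC fT U T') U (le_preimage_box hι₁ hι₂ U h)).hom := by
  intro s
  refine ⟨((pullback.fst fC fT).appLE U (box fC fT U T') (box_le_fst fC fT U T')).hom s, ?_⟩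
  exact congrArg (fun φ : Γ(C, U) ⟶ Γ(C, U) => φ.hom s) (appLE_fst_fib hι₁ hι₂ U h)

include ht₀ hι₁ in
/-- **the kernel of `ι^* : Γ(X, U × T') → Γ(C, U)` is generated by the maximal ideal of `t₀`** -/
theorem ker_fib (hU : IsAffineOpen U) (hT' : IsAffineOpen T') :
    RingHom.ker (ι.appLE (box fC fT U T') U (le_preimage_box hι₁ hι₂ U h)).hom =
      Ideal.map ((pullback.snd fC fT).appLE T' (box fC fT U T') (box_le_snd fC fT U T')).hom
        (RingHom.ker (evOpen t₀ T' h).hom) := by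
  set p₁ := ((pullback.fst fC fT).appLE U (box fC fT U T') (box_le_fst fC fT U T')).hom with hp₁
  set p₂ := ((pullback.snd fC fT).appLE T' (box fC fT U T') (box_le_snd fC fT U T')).hom with hp₂
  set j := (ι.appLE (box fC fT U T') U (le_preimage_box hι₁ hι₂ U h)).hom with hj
  set ev := (evOpen t₀ T' h).hom with hev
  have hj1 : ∀ s, j (p₁ s) = s := fun s =>
    congrArg (fun φ : Γ(C, U) ⟶ Γ(C, U) => φ.hom s) (appLE_fst_fib hι₁ hι₂ U h)
  have hj2 : ∀ r, j (p₂ r) = (constHomOpen fC U).hom (ev r) := fun r =>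
    congrArg (fun φ : Γ(T, T') ⟶ Γ(C, U) => φ.hom r) (appLE_snd_fib hι₁ hι₂ U h)
  have hevc : ∀ c : K, ev ((constHomOpen fT T').hom c) = c := fun c =>
    congrArg (fun φ : CommRingCat.of K ⟶ CommRingCat.of K => φ.hom c)
      (constHomOpen_evOpen t₀ ht₀ T' h)
  have hle : Ideal.map p₂ (RingHom.ker ev) ≤ RingHom.ker j := by
    rw [Ideal.map_le_iff_le_comap]
    intro r hr
    rw [RingHom.mem_ker] at hr
    rw [Ideal.mem_comap, RingHom.mem_ker, hj2, hr, map_zero]
  apply le_antisymm _ hle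
  -- every section is `π₁^* s` modulo the ideal
  have key : ∀ w, ∃ s, w - p₁ s ∈ Ideal.map p₂ (RingHom.ker ev) := by
    intro w
    refine box_induction fC fT hU hT'
      (P := fun w => ∃ s, w - p₁ s ∈ Ideal.map p₂ (RingHom.ker ev)) ⟨0, by simp⟩ (fun s r => ?_)
      (fun a b ⟨sa, ha⟩ ⟨sb, hb⟩ => ?_) w
    · refine ⟨s * (constHomOpen fC U).hom (ev r), ?_⟩
      have h3 : p₁ ((constHomOpen fC U).hom (ev r)) = p₂ ((constHomOpen fT T').hom (ev r)) :=
        appLE_fst_const fC fT U T' (ev r)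
      have h4 : p₁ s * p₂ r - p₁ (s * (constHomOpen fC U).hom (ev r)) =
          p₁ s * p₂ (r - (constHomOpen fT T').hom (ev r)) := by
        rw [map_mul, h3, map_sub]; ring
      rw [h4]
      refine Ideal.mul_mem_left _ _ (Ideal.mem_map_of_mem _ ?_)
      rw [RingHom.mem_ker, map_sub, hevc, sub_self]
    · refine ⟨sa + sb, ?_⟩
      have : a + b - p₁ (sa + sb) = (a - p₁ sa) + (b - p₁ sb) := by rw [map_add]; ring
      rw [this]
      exact Ideal.add_mem _ ha hb
  intro w hw
  obtain ⟨s, hs⟩ := key w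
  have h5 : j (w - p₁ s) = 0 := hle hs
  rw [map_sub, hj1, (RingHom.mem_ker).mp hw, zero_sub, neg_eq_zero] at h5
  rw [h5, map_zero, sub_zero] at hs
  exact hs

end fibre2

/-- the kernel of the evaluation at `t₀` is the prime ideal of the point `t₀` -/
theorem ker_evOpen (t₀ : Spec (CommRingCat.of K) ⟶ T) {T' : T.Opens} (hT' : IsAffineOpen T')
    (h : t₀ (IsLocalRing.closedPoint K) ∈ T') :
    RingHom.ker (evOpen t₀ T' h).hom =
      (hT'.primeIdealOf ⟨t₀ (IsLocalRing.closedPoint K), h⟩).asIdeal := by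
  have h1 := IsAffineOpen.comap_primeIdealOf_appLE (f := t₀) (x := IsLocalRing.closedPoint K)
    T' hT' ⊤ (isAffineOpen_top _) (top_le_preimage t₀ T' h) trivial
  rw [← h1]
  set 𝔭 := (isAffineOpen_top (Spec (CommRingCat.of K))).primeIdealOf
    ⟨IsLocalRing.closedPoint K, trivial⟩ with h𝔭
  have h2 : 𝔭.asIdeal = RingHom.ker (Scheme.ΓSpecIso (CommRingCat.of K)).hom.hom := by
    have hinj : Function.Injective (Scheme.ΓSpecIso (CommRingCat.of K)).hom.hom :=
      (ConcreteCategory.bijective_of_isIso (Scheme.ΓSpecIso (CommRingCat.of K)).hom).injective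
    rw [(RingHom.injective_iff_ker_eq_bot _).mp hinj, eq_bot_iff]
    intro a ha
    by_contra hne
    have hne' : (Scheme.ΓSpecIso (CommRingCat.of K)).hom.hom a ≠ 0 := by
      intro h0
      exact hne (hinj (by rw [h0, map_zero]))
    have hu : IsUnit ((Scheme.ΓSpecIso (CommRingCat.of K)).hom.hom a) := IsUnit.mk0 _ hne'
    have hu' : IsUnit a := by
      have := hu.map (Scheme.ΓSpecIso (CommRingCat.of K)).inv.hom
      have e : (Scheme.ΓSpecIso (CommRingCat.of K)).inv.hom
          ((Scheme.ΓSpecIso (CommRingCat.of K)).hom.hom a) = a := by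
        have := congrArg (fun φ : Γ(Spec (CommRingCat.of K), ⊤) ⟶ Γ(Spec (CommRingCat.of K), ⊤) =>
          φ.hom a) (Scheme.ΓSpecIso (CommRingCat.of K)).hom_inv_id
        exact this
      rwa [e] at this
    exact 𝔭.isPrime.ne_top (Ideal.eq_top_of_isUnit_mem _ ha hu')
  ext r
  rw [RingHom.mem_ker, PrimeSpectrum.comap_asIdeal, Ideal.mem_comap, h2, RingHom.mem_ker]
  rfl

end Fermat.Agent.S26lib.ProdAff
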