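/-
S26lib / ProdAff / Finite  (helper4)  --  Project K (S26), brick (G2)

Boxes over basic opens are basic opens, and finiteness: if `Γ(C,U)` is module-finite over `K[x₁]`
then `Γ(C ×_K T, U × T')` is module-finite over `Γ(T,T')[π₁^* x₁]`.  Mathlib objects only.
-/
import Mathlib
import Fermat.Agent.S26lib.ProdAff.Fibre

set_option autoImplicit false

universe u

open AlgebraicGeometry CategoryTheory CategoryTheory.Limits TopologicalSpace TensorProduct

namespace Fermat.Agent.S26lib.ProdAff

open Fermat.Agent.S26lib.P5a Polynomial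

variable {K : Type u} [Field K] {C T : Scheme.{u}}
  (fC : C ⟶ Spec (CommRingCat.of K)) (fT : T ⟶ Spec (CommRingCat.of K))

/-- boxes over basic opens are basic opens -/
theorem box_basicOpen (U : C.Opens) (T' : T.Opens) (x₁ : Γ(C, U)) :
    box fC fT (C.basicOpen x₁) T' =
      (pullback fC fT).basicOpen
        (((pullback.fst fC fT).appLE U (box fC fT U T') (box_le_fst fC fT U T')).hom x₁) := by
  have h1 : ((pullback.fst fC fT).appLE U (box fC fT U T') (box_le_fst fC fT U T')).hom x₁ =
      ((pullback fC fT).presheaf.map (homOfLE (box_le_fst fC fT U T')).op).hom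
        (((pullback.fst fC fT).app U).hom x₁) := rfl
  rw [h1, Scheme.basicOpen_res, ← Scheme.preimage_basicOpen]
  have h2 : C.basicOpen x₁ ≤ U := C.basicOpen_le x₁
  apply le_antisymm
  · intro z hz
    exact ⟨⟨h2 hz.1, hz.2⟩, hz.1⟩
  · intro z hz
    exact ⟨hz.2, hz.1.2⟩

/-- **finiteness**: if `Γ(C,U)` is module-finite over `K[x₁]` then `Γ(X, U × T')` is module-finite
over `Γ(T,T')[π₁^* x₁]` -/
theorem finite_box {U : C.Opens} {T' : T.Opens} (hU : IsAffineOpen U) (hT' : IsAffineOpen T')
    (x₁ : Γ(C, U))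
    (hfin : (Polynomial.eval₂RingHom (constHomOpen fC U).hom x₁).Finite) :
    (Polynomial.eval₂RingHom
      ((pullback.snd fC fT).appLE T' (box fC fT U T') (box_le_snd fC fT U T')).hom
      (((pullback.fst fC fT).appLE U (box fC fT U T') (box_le_fst fC fT U T')).hom x₁)).Finite := by
  classical
  set p₁ := ((pullback.fst fC fT).appLE U (box fC fT U T') (box_le_fst fC fT U T')).hom with hp₁
  set p₂ := ((pullback.snd fC fT).appLE T' (box fC fT U T') (box_le_snd fC fT U T')).hom with hp₂
  set φ := Polynomial.eval₂RingHom (constHomOpen fC U).hom x₁ with hφ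
  set Φ := Polynomial.eval₂RingHom p₂ (p₁ x₁) with hΦ
  have hcomp : p₁.comp (constHomOpen fC U).hom = p₂.comp (constHomOpen fT T').hom :=
    RingHom.ext fun c => appLE_fst_const fC fT U T' c
  have key : ∀ f : K[X], p₁ (φ f) = Φ (f.map (constHomOpen fT T').hom) := by
    intro f
    show p₁ (Polynomial.eval₂ _ x₁ f) = Polynomial.eval₂ p₂ (p₁ x₁) (f.map _)
    rw [Polynomial.hom_eval₂, Polynomial.eval₂_map, hcomp]
  let algA : Algebra K[X] Γ(C, U) := φ.toAlgebra
  let algW : Algebra (Γ(T, T'))[X] Γ(pullback fC fT, box fC fT U T') := Φ.toAlgebra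
  have hfin' : Module.Finite K[X] Γ(C, U) := hfin
  obtain ⟨S, hS⟩ := hfin'.fg_top
  show Module.Finite (Γ(T, T'))[X] Γ(pullback fC fT, box fC fT U T')
  refine ⟨⟨S.image p₁, ?_⟩⟩
  rw [eq_top_iff]
  intro w _
  have hQ : ∀ s : Γ(C, U), ∀ r : Γ(T, T'),
      p₁ s * p₂ r ∈ Submodule.span (Γ(T, T'))[X] ((S.image p₁ : Finset _) : Set _) := by
    intro s
    have hs : s ∈ Submodule.span K[X] (S : Set Γ(C, U)) := by rw [hS]; trivial
    induction hs using Submodule.span_induction with
    | mem s hs =>
      intro r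
      have : p₁ s * p₂ r = (Polynomial.C r : (Γ(T, T'))[X]) • p₁ s := by
        rw [Algebra.smul_def]
        show _ = Φ (Polynomial.C r) * p₁ s
        rw [hΦ, Polynomial.coe_eval₂RingHom, Polynomial.eval₂_C, mul_comm]
      rw [this]
      refine Submodule.smul_mem _ _ (Submodule.subset_span ?_)
      rw [Finset.coe_image]
      exact ⟨s, hs, rfl⟩
    | zero => intro r; rw [map_zero, zero_mul]; exact Submodule.zero_mem _
    | add a b _ _ ha hb => intro r; rw [map_add, add_mul]; exact Submodule.add_mem _ (ha r) (hb r)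
    | smul f s _ hs =>
      intro r
      have : p₁ (f • s) * p₂ r = (f.map (constHomOpen fT T').hom) • (p₁ s * p₂ r) := by
        rw [Algebra.smul_def, Algebra.smul_def]
        show p₁ (φ f * s) * p₂ r = Φ _ * (p₁ s * p₂ r)
        rw [map_mul, key, mul_assoc]
      rw [this]
      exact Submodule.smul_mem _ _ (hs r)
  refine box_induction fC fT hU hT' (Submodule.zero_mem _) (fun s r => hQ s r)
    (fun a b ha hb => Submodule.add_mem _ ha hb) w

end Fermat.Agent.S26lib.ProdAff
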